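import Mathlib

/-!
# RIBET / TORIC (helper43): Frobenius characteristic polynomial at a Steinberg prime

Pure linear algebra (Mathlib only).  Let `S`, `U` be endomorphisms of a free module of rank `2`
over a domain with

* `U` unipotent (`charpoly U = (X - 1) ^ 2`) and `U ≠ 1`  (ramified, unipotent inertia),
* `S ∘ U = U ^ q ∘ S`                                       (tame relation `σ τ σ⁻¹ = τ ^ q`),
* `det S = q`, `q ≠ 0`, `q ≠ 1`                             (cyclotomic determinant).

Then `charpoly S = X² - (q + 1) X + q` or `charpoly S = X² + (q + 1) X + q`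
(`charpoly_eq_of_unipotent_conj`).  This is the second clause of S35 in the ramified case.
-/

set_option autoImplicit false

namespace Fermat.Agent.Ribet.H43

open Polynomial Matrix

section Mat

variable {R : Type*} [CommRing R] [IsDomain R]

/-- Cayley–Hamilton for `2 × 2` matrices. -/
theorem mat_sq_eq (S : Matrix (Fin 2) (Fin 2) R) :
    S * S = S.trace • S - S.det • (1 : Matrix (Fin 2) (Fin 2) R) := by
  have h := Matrix.aeval_self_charpoly S
  rw [Matrix.charpoly_fin_two] at h
  simp only [map_add, map_sub, map_mul, map_pow, aeval_X, aeval_C, Algebra.algebraMap_eq_smul_one]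
    at h
  rw [sq, smul_mul_assoc, one_mul] at h
  rw [eq_sub_iff_add_eq, ← sub_eq_zero, ← h]
  abel

/-- The key identity: `S M = q M S`, `det S = q`, `q (1 - q) ≠ 0`, `M ≠ 0` force
`(tr S)² = (1 + q)²`. -/
theorem trace_sq_eq_of_rel (S M : Matrix (Fin 2) (Fin 2) R) (q : R) (hq0 : q ≠ 0) (hq1 : q ≠ 1)
    (hM : M ≠ 0) (hrel : S * M = q • (M * S)) (hdet : S.det = q) :
    S.trace ^ 2 = (1 + q) ^ 2 := by
  set T := S.trace with hT
  have hCH : S * S = T • S - q • (1 : Matrix (Fin 2) (Fin 2) R) := by
    rw [mat_sq_eq S, hdet]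
  -- Step A
  have hA : S * S * M = (q ^ 2) • (M * (S * S)) := by
    have e1 : S * S * M = S * (S * M) := Matrix.mul_assoc S S M
    have e2 : S * (q • (M * S)) = q • (S * M * S) := by
      rw [Matrix.mul_smul, Matrix.mul_assoc]
    have e3 : q • (q • (M * S) * S) = (q ^ 2) • (M * (S * S)) := by
      rw [Matrix.smul_mul, smul_smul, Matrix.mul_assoc, sq]
    rw [e1, hrel, e2, hrel, e3]
  -- Step B
  have hB : (q * (1 - q)) • (T • (M * S) - (1 + q) • M) = 0 := by
    rw [hCH] at hA
    rw [Matrix.sub_mul, Matrix.mul_sub, Matrix.smul_mul, Matrix.smul_mul, Matrix.mul_smul,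
      Matrix.mul_smul, Matrix.one_mul, Matrix.mul_one, hrel, smul_sub, smul_smul, smul_smul,
      smul_smul] at hA
    have hA' := sub_eq_zero.mpr hA
    rw [smul_sub, smul_smul, smul_smul, ← hA']
    module
  have hB' : T • (M * S) = (1 + q) • M := by
    have h1 : q * (1 - q) ≠ 0 := mul_ne_zero hq0 (sub_ne_zero.mpr (Ne.symm hq1))
    rcases smul_eq_zero.mp hB with h | h
    · exact absurd h h1
    · exact sub_eq_zero.mp h
  -- Step C
  have hC : (T ^ 2 - (1 + q) ^ 2) • M = 0 := by
    have h2 : T • (M * (S * S)) = (1 + q) • (M * S) := by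
      rw [← Matrix.mul_assoc, ← Matrix.smul_mul, hB', Matrix.smul_mul]
    rw [hCH, Matrix.mul_sub, Matrix.mul_smul, Matrix.mul_smul, Matrix.mul_one, smul_sub,
      smul_smul, smul_smul] at h2
    have h3 := congrArg (fun X => T • X) h2
    simp only [smul_sub, smul_smul] at h3
    have e1 : (T * (T * T)) • (M * S) = (T * T) • (T • (M * S)) := by rw [smul_smul]; ring_nf
    have e2 : (T * (1 + q)) • (M * S) = (1 + q) • (T • (M * S)) := by rw [smul_smul]; ring_nf
    rw [e1, e2, hB', smul_smul, smul_smul] at h3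
    have h4 := sub_eq_zero.mpr h3
    rw [← h4]
    module
  rcases smul_eq_zero.mp hC with h | h
  · exact sub_eq_zero.mp h
  · exact absurd h hM

end Mat

section Lin

variable {R V : Type*} [CommRing R] [IsDomain R] [AddCommGroup V] [Module R V]
  [Module.Free R V] [Module.Finite R V]

omit [IsDomain R] in
/-- A unipotent endomorphism in rank two: `(U - 1)² = 0`. -/
theorem sub_one_mul_self_of_charpoly (U : V →ₗ[R] V) (hU : U.charpoly = (X - 1) ^ 2) :
    (U - 1) * (U - 1) = 0 := by
  have h := LinearMap.aeval_self_charpoly U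
  rw [hU] at h
  simpa [sq] using h

/-- `(1 + N) ^ k = 1 + k • N` if `N² = 0`. -/
theorem one_add_pow_of_sq_zero {A : Type*} [Ring A] (N : A) (hN : N * N = 0) (k : ℕ) :
    (1 + N) ^ k = 1 + k • N := by
  induction k with
  | zero => simp
  | succ k ih =>
    have h1 : (k • N) * N = 0 := by rw [smul_mul_assoc, hN, smul_zero]
    rw [pow_succ, ih, add_mul, mul_add, mul_add, h1, succ_nsmul]
    simp only [one_mul, mul_one, add_zero]
    abel

/-- **Frobenius at a Steinberg prime.**  See the module docstring. -/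
theorem charpoly_eq_of_unipotent_conj (hV : Module.finrank R V = 2) (S U : V →ₗ[R] V) (q : ℕ)
    (hq0 : (q : R) ≠ 0) (hq1 : (q : R) ≠ 1) (hU : U.charpoly = (X - 1) ^ 2) (hU1 : U ≠ 1)
    (hrel : S * U = U ^ q * S) (hdet : LinearMap.det S = (q : R)) :
    S.charpoly = X ^ 2 - C ((q : R) + 1) * X + C (q : R) ∨
      S.charpoly = X ^ 2 + C ((q : R) + 1) * X + C (q : R) := by
  classical
  set N : V →ₗ[R] V := U - 1 with hN
  have hNN : N * N = 0 := sub_one_mul_self_of_charpoly U hU
  have hN0 : N ≠ 0 := fun h => hU1 (sub_eq_zero.mp h)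
  have hUN : U = 1 + N := by rw [hN]; abel
  have hSN : S * N = (q : R) • (N * S) := by
    have h1 : S * U = S + S * N := by rw [hUN, mul_add, mul_one]
    have h2 : U ^ q * S = S + (q : R) • (N * S) := by
      rw [hUN, one_add_pow_of_sq_zero N hNN q, add_mul, one_mul, smul_mul_assoc,
        Nat.cast_smul_eq_nsmul]
    rw [h1, h2] at hrel
    exact add_left_cancel hrel
  let b : Module.Basis (Fin 2) R V := Module.finBasisOfFinrankEq R V hV
  set Sm := LinearMap.toMatrix b b S with hSm
  set Nm := LinearMap.toMatrix b b N with hNm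
  have hNm0 : Nm ≠ 0 := by
    intro h
    apply hN0
    have := (LinearMap.toMatrix b b).injective (h.trans (map_zero _).symm)
    exact this
  have hrelm : Sm * Nm = (q : R) • (Nm * Sm) := by
    rw [hSm, hNm, ← LinearMap.toMatrix_mul, ← LinearMap.toMatrix_mul, hSN, map_smul]
  have hdetm : Sm.det = (q : R) := by
    rw [hSm, LinearMap.det_toMatrix, hdet]
  have htr := trace_sq_eq_of_rel Sm Nm (q : R) hq0 hq1 hNm0 hrelm hdetm
  have hchar : S.charpoly = X ^ 2 - C Sm.trace * X + C (q : R) := by
    rw [← LinearMap.charpoly_toMatrix S b, Matrix.charpoly_fin_two, ← hSm, hdetm]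
  have hfac : (Sm.trace - (1 + (q : R))) * (Sm.trace + (1 + (q : R))) = 0 := by
    have := sub_eq_zero.mpr htr
    rw [← this]
    ring
  rcases mul_eq_zero.mp hfac with h | h
  · left
    rw [hchar, sub_eq_zero.mp h, add_comm (1 : R) (q : R)]
  · right
    have h' : Sm.trace = -((q : R) + 1) := by
      rw [eq_neg_iff_add_eq_zero, ← h]; ring
    rw [hchar, h', map_neg, neg_mul, sub_neg_eq_add]

end Lin

end Fermat.Agent.Ribet.H43
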