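import Mathlib
import Fermat.Prelude.Def_FLTPrelim_Ramification
import Fermat.Prelude.Def_EllipticCurve_FrobeniusTrace
import Fermat.Agent.A2.H708.Tame

/-!
# RIBET / TORIC piece TC (helper43): the tame conjugation relation `σ τ σ⁻¹ ≡ τ ^ q`

`L / K` algebraic, `A` a valuation subring of `L` over the prime `q`, `σ` a Frobenius element at
`A`, `τ` in the inertia group of `A` (Prelude form `inertiaSubgroupIn`).

* `tameHom_conj` : the tame character (helper708) of `σ τ σ⁻¹` is the `q`-th power of that of `τ`.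
* `IsWild` : inertia elements with trivial tame character, i.e. `v (w c - c) < v c` for `c ≠ 0`.
* `isWild_conj_mul_inv_pow` : `σ τ σ⁻¹ (τ ^ q)⁻¹` is wild.
* `IsWild.apply_eq_of_pow_apply_eq` : a wild element whose `n`-th power fixes `x`, `n` prime to
  the residue characteristic, fixes `x` (no discreteness of the valuation is needed).
* `tame_conj_smul` : on every `G`-set whose action factors through a finite level and on which
  inertia acts through exponent `m` prime to `q`:  `(σ τ σ⁻¹) • x = τ ^ q • x`.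
-/

set_option autoImplicit false

namespace Fermat.Agent.Ribet.H43

open Fermat.Agent.A2.H708

variable {K L : Type*} [Field K] [Field L] [Algebra K L] (A : ValuationSubring L)

/-- The inertia subgroup is normal in the decomposition subgroup. -/
theorem inertiaSubgroup_normal : (A.inertiaSubgroup K).Normal := by
  unfold ValuationSubring.inertiaSubgroup
  exact MonoidHom.normal_ker _

/-- Inertia is normal in the decomposition group (Prelude form). -/
theorem conj_mem_inertiaIn {σ τ : L ≃ₐ[K] L} (hσ : σ ∈ A.decompositionSubgroup K)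
    (hτ : τ ∈ A.inertiaSubgroupIn K) : σ * τ * σ⁻¹ ∈ A.inertiaSubgroupIn K := by
  have hn : (A.inertiaSubgroup K).Normal := inertiaSubgroup_normal A
  rw [ValuationSubring.inertiaSubgroupIn, Subgroup.mem_map] at hτ ⊢
  obtain ⟨g, hg, hgτ⟩ := hτ
  have h2 := hn.conj_mem g hg ⟨σ, hσ⟩
  refine ⟨_, h2, ?_⟩
  rw [← hgτ]
  simp only [Subgroup.coe_subtype, Subgroup.coe_mul, Subgroup.coe_inv]

/-- The residue class of `σ u` is `σ` applied to the residue class of `u`. -/
theorem residue_apply {σ : L ≃ₐ[K] L} (hσ : σ ∈ A.decompositionSubgroup K) (u : L) (hu : u ∈ A)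
    (hσu : σ u ∈ A) :
    IsLocalRing.residue A ⟨σ u, hσu⟩ =
      (⟨σ, hσ⟩ : A.decompositionSubgroup K) • IsLocalRing.residue A ⟨u, hu⟩ := by
  rw [← IsLocalRing.ResidueField.residue_smul]
  rfl

section tame

variable [Algebra.IsAlgebraic K L]

/-- `τ c / c ∈ A` for `τ` in the decomposition group. -/
theorem apply_div_self_mem {τ : L ≃ₐ[K] L} (hτ : τ ∈ A.decompositionSubgroup K) (c : Lˣ) :
    τ (c : L) / c ∈ A :=
  (A.valuation_le_one_iff _).mp (valuation_apply_div_self A hτ c.ne_zero).le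

/-- The value of the tame character as a residue class. -/
theorem coe_tameHom {τ : L ≃ₐ[K] L} (hτ : τ ∈ A.inertiaSubgroupIn K) (c : Lˣ) :
    ((tameHom A hτ c : (IsLocalRing.ResidueField A)ˣ) : IsLocalRing.ResidueField A) =
      IsLocalRing.residue A
        ⟨τ (c : L) / c, apply_div_self_mem A (mem_decomposition_of_mem_inertiaIn A hτ) c⟩ := by
  show (A.unitGroupToResidueFieldUnits (ratioHom A _ c) : IsLocalRing.ResidueField A) = _
  rw [ValuationSubring.coe_unitGroupToResidueFieldUnits_apply]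
  show IsLocalRing.residue A _ = _
  congr 1
  apply Subtype.ext
  rw [ValuationSubring.coe_unitGroupMulEquiv_apply, coe_ratioHom]

/-- The tame character only depends on the automorphism, not on the membership proof. -/
theorem tameHom_congr {τ τ' : L ≃ₐ[K] L} (e : τ = τ') (hτ : τ ∈ A.inertiaSubgroupIn K)
    (hτ' : τ' ∈ A.inertiaSubgroupIn K) (c : Lˣ) : tameHom A hτ c = tameHom A hτ' c := by
  subst e
  rfl

/-- The tame character of a power. -/
theorem tameHom_pow {τ : L ≃ₐ[K] L} (hτ : τ ∈ A.inertiaSubgroupIn K) (n : ℕ)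
    (h : τ ^ n ∈ A.inertiaSubgroupIn K) (c : Lˣ) :
    tameHom A h c = tameHom A hτ c ^ n := by
  induction n with
  | zero =>
    refine (tameHom_eq_one_of_fixed A h c ?_).trans (pow_zero _).symm
    rfl
  | succ n ih =>
    have h1 := tameHom_mul A (pow_mem hτ n) hτ c
    rw [ih (pow_mem hτ n)] at h1
    rw [pow_succ (tameHom A hτ c) n, ← h1]
    exact tameHom_congr A (pow_succ τ n) _ _ c

/-- The tame character of a conjugate by a Frobenius element is the `q`-th power. -/
theorem tameHom_conj {q : ℕ} {σ τ : L ≃ₐ[K] L} (hσ : A.IsFrobeniusAt σ q)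
    (hτ : τ ∈ A.inertiaSubgroupIn K) (h : σ * τ * σ⁻¹ ∈ A.inertiaSubgroupIn K) (c : Lˣ) :
    tameHom A h c = tameHom A hτ c ^ q := by
  have hσD : σ ∈ A.decompositionSubgroup K := hσ.mem_decompositionSubgroup
  have hτD : τ ∈ A.decompositionSubgroup K := mem_decomposition_of_mem_inertiaIn A hτ
  -- `c' = σ⁻¹ c`
  set c' : Lˣ := Units.map ((σ⁻¹ : L ≃ₐ[K] L) : L →* L) c with hc'
  have hc'val : ((c' : Lˣ) : L) = σ⁻¹ (c : L) := rfl
  have hv : A.valuation (c' : L) = A.valuation (c : L) := by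
    rw [hc'val]
    exact valuation_apply_of_mem_decomposition A (inv_mem hσD) (c : L)
  have h1 : tameHom A hτ c' = tameHom A hτ c := tameHom_eq_of_valuation_eq A hτ c' c hv
  apply Units.ext
  rw [Units.val_pow_eq_pow_val, ← h1, coe_tameHom, coe_tameHom, ← hσ.smul_residue_eq]
  have hmem : τ (c' : L) / c' ∈ A := apply_div_self_mem A hτD c'
  have hσc' : σ (c' : L) = c := by
    rw [hc'val]
    show (σ * σ⁻¹) (c : L) = c
    rw [mul_inv_cancel]; rfl
  have hel : (σ * τ * σ⁻¹) (c : L) / c = σ (τ (c' : L) / c') := by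
    rw [map_div₀, hσc', hc'val]
    rfl
  have hmem' : σ (τ (c' : L) / c') ∈ A := apply_mem_of_mem_decomposition A hσD hmem
  rw [← residue_apply A hσD _ hmem hmem']
  congr 1
  exact Subtype.ext hel

/-! ### Wild elements -/

/-- `w` is *wild at `A`*: it lies in the inertia group and has trivial tame character. -/
def IsWild (w : L ≃ₐ[K] L) : Prop :=
  ∃ h : w ∈ A.inertiaSubgroupIn K, ∀ c : Lˣ, tameHom A h c = 1

variable {A}

theorem IsWild.mem {w : L ≃ₐ[K] L} (hw : IsWild A w) : w ∈ A.inertiaSubgroupIn K := hw.1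

theorem IsWild.valuation_sub_lt {w : L ≃ₐ[K] L} (hw : IsWild A w) {c : L} (hc : c ≠ 0) :
    A.valuation (w c - c) < A.valuation c :=
  (tameHom_eq_one_iff A hw.1 (Units.mk0 c hc)).mp (hw.2 _)

theorem IsWild.pow {w : L ≃ₐ[K] L} (hw : IsWild A w) (n : ℕ) : IsWild A (w ^ n) :=
  ⟨pow_mem hw.1 n, fun c => by rw [tameHom_pow A hw.1 n _ c, hw.2 c, one_pow]⟩

/-- `σ τ σ⁻¹ (τ ^ q)⁻¹` is wild. -/
theorem isWild_conj_mul_inv_pow {q : ℕ} {σ τ : L ≃ₐ[K] L} (hσ : A.IsFrobeniusAt σ q)
    (hτ : τ ∈ A.inertiaSubgroupIn K) : IsWild A (σ * τ * σ⁻¹ * (τ ^ q)⁻¹) := by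
  have h1 : σ * τ * σ⁻¹ ∈ A.inertiaSubgroupIn K :=
    conj_mem_inertiaIn A hσ.mem_decompositionSubgroup hτ
  have h2 : τ ^ q ∈ A.inertiaSubgroupIn K := pow_mem hτ q
  refine ⟨mul_mem h1 (inv_mem h2), fun c => ?_⟩
  rw [tameHom_mul A h1 (inv_mem h2) c, tameHom_inv A h2 c, tameHom_conj A hσ hτ h1 c,
    tameHom_pow A hτ q h2 c, mul_inv_cancel]

omit [Algebra.IsAlgebraic K L] in
/-- Telescoping: `wⁿ x - x = ∑_{i < n} wⁱ (w x - x)`. -/
theorem pow_apply_sub_eq_sum (w : L ≃ₐ[K] L) (x : L) (n : ℕ) :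
    (w ^ n) x - x = ∑ i ∈ Finset.range n, (w ^ i) (w x - x) := by
  induction n with
  | zero => simp
  | succ n ih =>
    rw [Finset.sum_range_succ, ← ih]
    have h1 : (w ^ (n + 1)) x = (w ^ n) (w x) := by
      rw [pow_succ]; rfl
    rw [h1, map_sub]
    ring

/-- A wild element whose `n`-th power fixes `x`, with `n` a unit of `A`, fixes `x`. -/
theorem IsWild.apply_eq_of_pow_apply_eq {w : L ≃ₐ[K] L} (hw : IsWild A w) {n : ℕ}
    (hn : A.valuation (n : L) = 1) {x : L} (hx : (w ^ n) x = x) : w x = x := by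
  by_contra hne
  set y : L := w x - x with hy
  have hy0 : y ≠ 0 := sub_ne_zero.mpr hne
  have hvy : A.valuation y ≠ 0 := (Valuation.ne_zero_iff _).mpr hy0
  have hsum : ∑ i ∈ Finset.range n, (w ^ i) y = 0 := by
    rw [← pow_apply_sub_eq_sum, hx, sub_self]
  have hsplit : ∑ i ∈ Finset.range n, (w ^ i) y =
      (n : L) * y + ∑ i ∈ Finset.range n, ((w ^ i) y - y) := by
    rw [Finset.sum_sub_distrib, Finset.sum_const, Finset.card_range, nsmul_eq_mul]
    ring
  have hsmall : A.valuation (∑ i ∈ Finset.range n, ((w ^ i) y - y)) < A.valuation y :=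
    Valuation.map_sum_lt _ hvy fun i _ => (hw.pow i).valuation_sub_lt hy0
  have hbig : A.valuation ((n : L) * y) = A.valuation y := by
    rw [map_mul, hn, one_mul]
  have hval : A.valuation ((n : L) * y + ∑ i ∈ Finset.range n, ((w ^ i) y - y)) =
      A.valuation y := by
    rw [← hbig]
    exact Valuation.map_add_eq_of_lt_left _ (by rw [hbig]; exact hsmall)
  rw [← hsplit, hsum, map_zero] at hval
  exact hvy hval.symm

/-- An integer prime to the residue characteristic `q` is a unit of `A`. -/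
theorem valuation_natCast_eq_one {q : ℕ} (hq : q.Prime) (hA : A.LiesOverPrime q) {n : ℕ}
    (hn : ¬ q ∣ n) : A.valuation (n : L) = 1 := by
  have hqv : A.valuation (q : L) < 1 := A.mem_nonunits_iff.mp hA
  have hcop : Nat.Coprime q n := (Nat.Prime.coprime_iff_not_dvd hq).mpr hn
  have hle : ∀ k : ℤ, A.valuation (k : L) ≤ 1 := fun k =>
    (A.valuation_le_one_iff _).mpr (intCast_mem A k)
  have hnle : A.valuation (n : L) ≤ 1 := by
    have h := hle (n : ℤ)
    rwa [Int.cast_natCast] at h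
  rcases hnle.lt_or_eq with hlt | heq
  · exfalso
    have hb : (q : ℤ) * Int.gcdA q n + (n : ℤ) * Int.gcdB q n = 1 := by
      have := Int.gcd_eq_gcd_ab (q : ℤ) (n : ℤ)
      rw [Int.gcd_natCast_natCast, hcop.gcd_eq_one] at this
      exact_mod_cast this.symm
    have hb' : (q : L) * (Int.gcdA q n : L) + (n : L) * (Int.gcdB q n : L) = 1 := by
      exact_mod_cast congrArg (Int.cast : ℤ → L) hb
    have h1 : A.valuation ((q : L) * (Int.gcdA q n : L)) < 1 := by
      rw [map_mul]
      exact mul_lt_one_of_lt_of_le hqv (hle _)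
    have h2 : A.valuation ((n : L) * (Int.gcdB q n : L)) < 1 := by
      rw [map_mul]
      exact mul_lt_one_of_lt_of_le hlt (hle _)
    have h3 := Valuation.map_add_lt _ h1 h2
    rw [hb', map_one] at h3
    exact lt_irrefl _ h3
  · exact heq

/-- Some positive power of an automorphism fixes a finite level pointwise. -/
theorem exists_pow_fixes (E : IntermediateField K L) [FiniteDimensional K E] (w : L ≃ₐ[K] L) :
    ∃ n : ℕ, 0 < n ∧ ∀ a ∈ E, (w ^ n) a = a := by
  obtain ⟨S, hS⟩ := (Module.Finite.fg_top : (⊤ : Submodule K E).FG)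
  choose f hf0 hf using fun a : L => exists_pow_apply_eq w a
  refine ⟨∏ s ∈ S, f (s : L), Finset.prod_pos fun s _ => hf0 _, fun a ha => ?_⟩
  have hfix : ∀ s ∈ S, (w ^ (∏ t ∈ S, f (t : L))) (s : L) = s := by
    intro s hs
    obtain ⟨k, hk⟩ := Finset.dvd_prod_of_mem (fun t : E => f (t : L)) hs
    rw [hk, pow_mul]
    clear hk
    induction k with
    | zero => rw [pow_zero]; rfl
    | succ k ih =>
      rw [pow_succ]
      show ((w ^ f (s : L)) ^ k) ((w ^ f (s : L)) (s : L)) = s
      rw [hf, ih]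
  have hmem : (⟨a, ha⟩ : E) ∈ Submodule.span K (S : Set E) := by rw [hS]; trivial
  have key : ∀ b : E, b ∈ Submodule.span K (S : Set E) →
      (w ^ (∏ t ∈ S, f (t : L))) (b : L) = b := by
    intro b hb
    induction hb using Submodule.span_induction with
    | mem x hx => exact hfix x hx
    | zero => simp
    | add x y _ _ hx hy =>
      rw [IntermediateField.coe_add, map_add, hx, hy]
    | smul c x _ hx =>
      rw [IntermediateField.coe_smul, Algebra.smul_def, map_mul, AlgEquiv.commutes, hx]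
  exact key ⟨a, ha⟩ hmem

end tame

/-- If `g ^ a` and `g ^ b` act trivially and `a`, `b` are coprime, then `g` acts trivially. -/
theorem smul_eq_of_pow_smul_eq {G X : Type*} [Group G] [MulAction G X] (g : G) {a b : ℕ}
    (hab : Nat.Coprime a b) (ha : ∀ x : X, g ^ a • x = x) (hb : ∀ x : X, g ^ b • x = x)
    (x : X) : g • x = x := by
  have h1 : (MulAction.toPermHom G X g) ^ a = 1 := by
    rw [← map_pow]
    ext y
    exact ha y
  have h2 : (MulAction.toPermHom G X g) ^ b = 1 := by
    rw [← map_pow]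
    ext y
    exact hb y
  have h3 : (MulAction.toPermHom G X g) ^ Nat.gcd a b = 1 := pow_gcd_eq_one.mpr ⟨h1, h2⟩
  rw [hab.gcd_eq_one, pow_one] at h3
  have := congrArg (fun e : Equiv.Perm X => e x) h3
  simpa using this

section main

variable [Algebra.IsAlgebraic K L]

/-- **TC.**  Let the action of `G = Aut(L/K)` on `X` factor through a finite level `E`, and let
the inertia group of `A` act on `X` through exponent `m` prime to the residue characteristic
`q`.  Then for a Frobenius element `σ` and `τ` in the inertia group,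
`(σ τ σ⁻¹) • x = τ ^ q • x`. -/
theorem tame_conj_smul {X : Type*} [MulAction (L ≃ₐ[K] L) X] {q : ℕ} (hq : q.Prime)
    (hA : A.LiesOverPrime q) {σ τ : L ≃ₐ[K] L} (hσ : A.IsFrobeniusAt σ q)
    (hτ : τ ∈ A.inertiaSubgroupIn K)
    (E : IntermediateField K L) [FiniteDimensional K E]
    (hE : ∀ g : L ≃ₐ[K] L, (∀ a ∈ E, g a = a) → ∀ x : X, g • x = x)
    (m : ℕ) (hm : ¬ q ∣ m) (hI : ∀ τ' ∈ A.inertiaSubgroupIn K, ∀ x : X, τ' ^ m • x = x)
    (x : X) : (σ * τ * σ⁻¹) • x = τ ^ q • x := by
  set w : L ≃ₐ[K] L := σ * τ * σ⁻¹ * (τ ^ q)⁻¹ with hw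
  have hwild : IsWild A w := isWild_conj_mul_inv_pow hσ hτ
  obtain ⟨n, hn0, hn⟩ := exists_pow_fixes E w
  obtain ⟨e, n', hn', hne⟩ := Nat.exists_eq_pow_mul_and_not_dvd hn0.ne' q hq.ne_one
  -- `u = w ^ (q ^ e)` is wild and `u ^ n'` fixes `E`
  have hu : IsWild A (w ^ (q ^ e)) := hwild.pow _
  have hufix : ∀ a ∈ E, (w ^ (q ^ e)) a = a := by
    intro a ha
    refine hu.apply_eq_of_pow_apply_eq (valuation_natCast_eq_one hq hA hn') ?_
    rw [← pow_mul, ← hne]
    exact hn a ha
  have h1 : ∀ y : X, w ^ (q ^ e) • y = y := hE _ hufix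
  have h2 : ∀ y : X, w ^ m • y = y := hI w hwild.mem
  have hcop : Nat.Coprime (q ^ e) m :=
    Nat.Coprime.pow_left e ((Nat.Prime.coprime_iff_not_dvd hq).mpr hm)
  have hwx : ∀ y : X, w • y = y := smul_eq_of_pow_smul_eq w hcop h1 h2
  have hdecomp : σ * τ * σ⁻¹ = w * τ ^ q := by
    rw [hw, inv_mul_cancel_right]
  rw [hdecomp, mul_smul, hwx]

end main

end Fermat.Agent.Ribet.H43
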